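import Fermat.Agent.E2Y.Main

/-!
# Unipotence of inertia at a prime dividing the level exactly once
-/

set_option autoImplicit false
set_option linter.unusedSectionVars false
set_option linter.style.haveILetI false

open Matrix.SpecialLinearGroup
open scoped MatrixGroups TensorProduct
open IsLocalRing
open Fermat.Agent.AL Fermat.Agent.ALCoh Fermat.Agent.KumG Fermat.Agent.GalRep
  Fermat.Agent.Places Fermat.Agent.Cheb Fermat.Agent.TW Fermat.Agent.SSH Fermat.Agent.E2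
  Fermat.Agent.E2K Fermat.Agent.Cov Fermat.Agent.Flat Fermat.Agent.RedMod Fermat.Agent.Sel
  Fermat.Agent.E2Y

namespace Fermat.Agent.E2N

noncomputable section

variable {O : Type} [CommRing O] [IsLocalRing O] [IsNoetherianRing O]
  [IsAdicComplete (maximalIdeal O) O] {p : ℕ} [hp : Fact p.Prime]
  (hpO : (p : O) ∈ maximalIdeal O) (ι : AlgebraicClosure ℚ →+* ℂ)
  {q M : ℕ} [hq : Fact q.Prime] [NeZero M] {S : Set ℕ}
  {A : ValuationSubring (AlgebraicClosure ℚ)}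

/-- inertia at `q` acts unipotently on the localised lattice of level `q * M` -/
theorem rhoY_sq {N : ℕ} [NeZero N] (hN : N = q * M) (hMN : M ∣ N) {H : Subgroup (ZMod N)ˣ}
    [hH : Fact ((-1 : (ZMod N)ˣ) ∈ H)] (hker : (ZMod.unitsMap hMN).ker ≤ H)
    (hNS : ∀ l, l.Prime → l ∣ N → l ∈ S) (e : TS O S)
    (hA : A.LiesOverPrime q) (hqM : ¬ q ∣ M) (hM3 : 3 ≤ M) (hqp : q ≠ p)
    (hp2 : p ≠ 2) (hΔ : IsPGroup p (DG N H)) {σ : GQ} (hσ : σ ∈ A.inertiaSubgroupIn ℚ)
    (y : YH H hNS e) :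
    rhoY hpO ι H hNS e σ (rhoY hpO ι H hNS e σ y) - rhoY hpO ι H hNS e σ y -
      rhoY hpO ι H hNS e σ y + y = 0 := by
  subst hN
  obtain ⟨H', rfl⟩ := exists_HM hker
  have hodd := odd_card (H := HM (dvd_mul_left M q) H') hp2 hΔ
  haveI : Fact ((-1 : (ZMod M)ˣ) ∈ H') := ⟨neg_one_mem_of_HM hH.out⟩
  have h1 := LinearMap.congr_fun (rhoT_unip (O := O) hpO ι hqp.symm hqM hM3 hodd hA hσ hσ)
      (y : XH O (q * M) (HM (dvd_mul_left M q) H'))
  rw [Module.End.mul_apply, LinearMap.sub_apply, LinearMap.sub_apply, map_sub,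
      Module.End.one_apply, Module.End.one_apply] at h1
  apply Subtype.ext
  rw [← sub_add] at h1
  exact h1

/-- **(H1)** for two elements of the inertia group -/
theorem rhoY_uni {N : ℕ} [NeZero N] (hN : N = q * M) (hMN : M ∣ N) {H : Subgroup (ZMod N)ˣ}
    [hH : Fact ((-1 : (ZMod N)ˣ) ∈ H)] (hker : (ZMod.unitsMap hMN).ker ≤ H)
    (hNS : ∀ l, l.Prime → l ∣ N → l ∈ S) (e : TS O S)
    (hA : A.LiesOverPrime q) (hqM : ¬ q ∣ M) (hM3 : 3 ≤ M) (hqp : q ≠ p)
    (hp2 : p ≠ 2) (hΔ : IsPGroup p (DG N H)) {σ τ : GQ} (hσ : σ ∈ A.inertiaSubgroupIn ℚ)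
    (hτ : τ ∈ A.inertiaSubgroupIn ℚ) :
    (rhoY hpO ι H hNS e σ - 1) * (rhoY hpO ι H hNS e τ - 1) = 0 := by
  subst hN
  obtain ⟨H', rfl⟩ := exists_HM hker
  have hodd := odd_card (H := HM (dvd_mul_left M q) H') hp2 hΔ
  haveI : Fact ((-1 : (ZMod M)ˣ) ∈ H') := ⟨neg_one_mem_of_HM hH.out⟩
  refine LinearMap.ext fun y => Subtype.ext ?_
  exact LinearMap.congr_fun (rhoT_unip (O := O) hpO ι hqp.symm hqM hM3 hodd hA hτ hσ)
      (y : XH O (q * M) (HM (dvd_mul_left M q) H'))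

end

section HGS

open Sel

variable {O T Y : Type} [CommRing O] [IsDomain O] [IsLocalRing O] [IsNoetherianRing O]
  [IsAdicComplete (maximalIdeal O) O] [CommRing T] [Algebra O T] [AddCommGroup Y] [Module O Y]
  [Module.Finite O Y] [Module.Free O Y] [Nontrivial Y] {p : ℕ} [hp : Fact p.Prime] {hpO : (p : O) ∈ maximalIdeal O} {S : Set ℕ} {t : GQ → ResidueField O}
  {ψ : T →ₐ[O] Module.End O Y} {θ : T →ₐ[O] ResidueField O} {ρ : GQ →* Module.End O Y}
  (h : HG hpO S t ψ θ ρ) [Invertible (2 : O)] {g₀ k₀ : GQ} (hgk : HG.IrrAt t g₀ k₀)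

include hgk in
/-- products of unipotent relations in matrix form -/
theorem R_mul_zero {σ τ : GQ} (hστ : (ρ σ - 1) * (ρ τ - 1) = 0) :
    (h.R hgk σ - 1) * (h.R hgk τ - 1) = 0 := by
  refine mact_inj (M := h.MQ) (fun a ha => h.faithful_MQ hgk ha) fun m => ?_
  obtain ⟨y, rfl⟩ := (h.EE hgk).surjective m
  have h0 : ρ σ (ρ τ y) - ρ σ y - ρ τ y + y = 0 := by
    have := LinearMap.congr_fun hστ y
    rw [Module.End.mul_apply, LinearMap.sub_apply, LinearMap.sub_apply, map_sub,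
      Module.End.one_apply, Module.End.one_apply, LinearMap.zero_apply] at this
    rw [← this]
    abel
  have h1 := congrArg (h.EE hgk) h0
  rw [map_add, map_sub, map_sub, h.EE_rho hgk, h.EE_rho hgk, h.EE_rho hgk, map_zero] at h1
  have h2 : (h.R hgk σ - 1) * (h.R hgk τ - 1) = h.R hgk σ * h.R hgk τ + (-1 : h.TT) • h.R hgk σ +
      (-1 : h.TT) • h.R hgk τ + 1 := by
    rw [neg_one_smul, neg_one_smul]
    noncomm_ring
  rw [h2, mact_add, mact_add, mact_add, mact_one, mact_mul, mact_smul, mact_smul]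
  have h3 : mact (0 : Matrix (Fin 2) (Fin 2) h.TT) (h.EE hgk y) = 0 := by
    apply Prod.ext <;> simp [mact]
  rw [h3, ← h1]
  module

end HGS

end Fermat.Agent.E2N
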