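import Fermat.Agent.S59e.YMap
import Fermat.Agent.E2N.Uni

/-!
# Frobenius at `q` on the classes with vanishing transfers
-/

set_option autoImplicit false
set_option linter.unusedSectionVars false
set_option linter.style.haveILetI false

open Matrix.SpecialLinearGroup
open scoped MatrixGroups TensorProduct
open IsLocalRing
open Fermat.Agent.AL Fermat.Agent.ALCoh Fermat.Agent.KumG Fermat.Agent.GalRep
  Fermat.Agent.Places Fermat.Agent.Cheb Fermat.Agent.TW Fermat.Agent.SSH Fermat.Agent.E2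
  Fermat.Agent.E2K Fermat.Agent.Cov Fermat.Agent.Flat Fermat.Agent.RedMod Fermat.Agent.Sel
  Fermat.Agent.E2Y Fermat.Agent.S59e

namespace Fermat.Agent.E2N

noncomputable section

/-! ### linear algebra -/

section lin

variable {O L L' : Type} [CommRing O] [AddCommGroup L] [AddCommGroup L']

/-- local rings without `p`-torsion are flat over `ℤ` -/
theorem flat_of_hreg [IsLocalRing O] {p : ℕ} [hp : Fact p.Prime] (hpO : (p : O) ∈ maximalIdeal O)
    (hreg : ∀ x : O, (p : O) * x = 0 → x = 0) : Module.Flat ℤ O := by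
  haveI : Module.IsTorsionFree ℤ O := by
    refine ⟨fun r hr x y hxy => ?_⟩
    have hr0 : r ≠ 0 := hr.ne_zero
    have h1 : (r : O) * (x - y) = 0 := by
      have h2 : r • x = r • y := hxy
      rw [zsmul_eq_mul, zsmul_eq_mul] at h2
      rw [mul_sub, h2, sub_self]
    rw [← sub_eq_zero]
    generalize x - y = z at h1
    have hpr : Prime (p : ℤ) := Nat.prime_iff_prime_int.1 hp.out
    obtain ⟨m, hm, hm'⟩ := (FiniteMultiplicity.of_not_isUnit hpr.not_isUnit hr0).exists_eq_pow_mul_and_not_dvd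
    rw [hm] at h1
    push_cast at h1
    have hu : IsUnit (m : O) := by
      by_contra hu
      have h3 : (m : O) ∈ maximalIdeal O := (mem_maximalIdeal _).2 hu
      obtain ⟨a, b, hab⟩ := (Int.isCoprime_iff_gcd_eq_one.2
        ((Int.isCoprime_iff_gcd_eq_one.1 ((Prime.coprime_iff_not_dvd hpr).2 hm'))))
      have h4 : (1 : O) = a * p + b * m := by
        have := congrArg (Int.cast : ℤ → O) hab
        push_cast at this
        exact this.symm
      apply (Ideal.ne_top_iff_one _).1 (maximalIdeal.isMaximal O).ne_top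
      rw [h4]
      exact Ideal.add_mem _ (Ideal.mul_mem_left _ _ hpO) (Ideal.mul_mem_left _ _ h3)
    have h5 : ∀ (k : ℕ) (w : O), (p : O) ^ k * w = 0 → w = 0 := by
      intro k
      induction k with
      | zero => intro w hw; rwa [pow_zero, one_mul] at hw
      | succ k ih =>
        intro w hw
        rw [pow_succ, mul_assoc] at hw
        exact hreg _ (ih _ hw)
    rw [mul_assoc] at h1
    exact (hu.mul_right_eq_zero).1 (h5 _ _ h1)
  infer_instance

theorem exists_lift_ker [Module.Flat ℤ O] (f : L →ₗ[ℤ] L') (ξ : O ⊗[ℤ] L)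
    (h : f.baseChange O ξ = 0) :
    ∃ ξ' : O ⊗[ℤ] LinearMap.ker f, (LinearMap.ker f).subtype.baseChange O ξ' = ξ := by
  have hex : Function.Exact (LinearMap.ker f).subtype f := by
    rw [LinearMap.exact_iff, Submodule.range_subtype]
  exact (Module.Flat.lTensor_exact O hex ξ).1 h

theorem exists_lift_ker2 [Module.Flat ℤ O] (f g : L →ₗ[ℤ] L') (ξ : O ⊗[ℤ] L)
    (h : f.baseChange O ξ = 0) (h' : g.baseChange O ξ = 0) :
    ∃ ξ' : O ⊗[ℤ] ↥(LinearMap.ker (f.prod g)),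
      (LinearMap.ker (f.prod g)).subtype.baseChange O ξ' = ξ := by
  apply exists_lift_ker
  have h1 : ∀ ξ : O ⊗[ℤ] L, TensorProduct.prodRight ℤ O O L' L' ((f.prod g).baseChange O ξ) =
      (f.baseChange O ξ, g.baseChange O ξ) := by
    intro ξ
    induction ξ with
    | zero => rw [map_zero, map_zero, map_zero, map_zero]; rfl
    | tmul o x => simp
    | add x y hx hy => rw [map_add, map_add, hx, hy, map_add, map_add]; rfl
  apply (TensorProduct.prodRight ℤ O O L' L').injective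
  rw [h1, h, h', map_zero]
  rfl

/-- a linear map vanishing on the integral kernel vanishes on the kernel with coefficients -/
theorem eq_zero_of_ker2 [Module.Flat ℤ O] {V : Type} [AddCommGroup V] [Module O V]
    (f g : L →ₗ[ℤ] L') (E : O ⊗[ℤ] L →ₗ[O] V)
    (hE : ∀ x, f x = 0 → g x = 0 → E (1 ⊗ₜ x) = 0) (ξ : O ⊗[ℤ] L)
    (h : f.baseChange O ξ = 0) (h' : g.baseChange O ξ = 0) : E ξ = 0 := by
  obtain ⟨ξ', rfl⟩ := exists_lift_ker2 f g ξ h h'
  have h1 : E ∘ₗ (LinearMap.ker (f.prod g)).subtype.baseChange O = 0 := by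
    refine LinearMap.ext fun y => ?_
    refine bc_ext O (f := E ∘ₗ (LinearMap.ker (f.prod g)).subtype.baseChange O) (g := 0)
      (fun x => ?_) y
    have h2 := LinearMap.mem_ker.1 x.2
    exact hE _ (congrArg Prod.fst h2) (congrArg Prod.snd h2)
  exact LinearMap.congr_fun h1 ξ'

end lin

variable {O : Type} [CommRing O] [IsLocalRing O] [IsNoetherianRing O]
  [IsAdicComplete (maximalIdeal O) O] {p : ℕ} [hp : Fact p.Prime]
  (hpO : (p : O) ∈ maximalIdeal O) (ι : AlgebraicClosure ℚ →+* ℂ)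
  {q M : ℕ} [hq : Fact q.Prime] [NeZero M]

section XH

variable {H : Subgroup (ZMod M)ˣ} [hH : Fact ((-1 : (ZMod M)ˣ) ∈ H)]
  {A : ValuationSubring (AlgebraicClosure ℚ)}

/-- the normalised square of Frobenius -/
def F2 (H : Subgroup (ZMod M)ˣ) [hH : Fact ((-1 : (ZMod M)ˣ) ∈ H)] (Φ : GQ)
    (d : (ZMod (q * M))ˣ) : Module.End O (XH O (q * M) (HM (dvd_mul_left M q) H)) :=
  rhoN hpO ι (q * M) (HM (dvd_mul_left M q) H) Φ ∘ₗ
    (rhoN hpO ι (q * M) (HM (dvd_mul_left M q) H) Φ ∘ₗ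
      (DH (q * M) (HM (dvd_mul_left M q) H) d).baseChange O)

/-- **Frobenius at `q` on the classes with vanishing transfers** -/
theorem F2_tor [Module.Flat ℤ O] (hqp : q ≠ p) (hM3 : 3 ≤ M) (D : WData q M H)
    (hA : A.LiesOverPrime q) {Φ : GQ} (hΦ : A.IsFrobeniusAt Φ q)
    {d : (ZMod (q * M))ˣ} (hqM : ¬ q ∣ M) (hco : q.Coprime M)
    (hd : ZMod.unitsMap (dvd_mul_left M q) d * ZMod.unitOfCoprime q hco ∈ H)
    {y : XH O (q * M) (HM (dvd_mul_left M q) H)}
    (h1 : tO O q M H y = 0) (h2 : tO O q M H (WO O D y) = 0) :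
    F2 hpO ι H Φ d (F2 hpO ι H Φ d y) - ((q ^ 2 + 1 : ℕ) : O) • F2 hpO ι H Φ d y +
      ((q ^ 2 : ℕ) : O) • y = 0 := by
  haveI : (GH (q * M) (HM (dvd_mul_left M q) H)).FiniteIndex := inferInstance
  have hm : ∀ n, ¬ q ∣ p ^ n := fun n h => hqp ((Nat.prime_dvd_prime_iff_eq hq.out hp.out).1
    (hq.out.dvd_of_dvd_pow h))
  have hF : ∀ n, Apx (p ^ n) (F2 (O := O) hpO ι H Φ d) (Th ι (p ^ n) Φ d) := fun n =>
    (apx_rhoO ι hpO Φ n).comp ((apx_rhoO ι hpO Φ n).comp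
      (apx_gen (O := O) (DH (q * M) (HM (dvd_mul_left M q) H) d) (p ^ n)))
  refine eq_zero_of_ker2 (trL : LZ (Gq q M H) →ₗ[ℤ] LZ (GH M H)) (trL ∘ₗ WH D)
    (F2 hpO ι H Φ d ∘ₗ F2 hpO ι H Φ d - ((q ^ 2 + 1 : ℕ) : O) • F2 hpO ι H Φ d +
      ((q ^ 2 : ℕ) : O) • LinearMap.id) (fun φ e1 e2 => ?_) y h1 ?_
  · refine eq_of_forall_pow hpO fun n => ?_
    have e3 := ((((hF n).comp (hF n)).sub ((hF n).nsmul (q ^ 2 + 1))).add
      ((Apx.id (O := O)).nsmul (q ^ 2))) φ 0 ?_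
    · obtain ⟨z, hz⟩ := e3
      refine ⟨z, ?_⟩
      rw [hz, TensorProduct.tmul_zero]
      push_cast
      rfl
    · rw [map_zero]
      exact rhoF_frob_toricH D hA hqM hM3 ι hΦ (hm n) φ (congrArg Subtype.val e1)
        (congrArg Subtype.val e2) hco hd
  · rw [LinearMap.baseChange_comp]
    exact h2

/-- the square of the twisted Frobenius -/
theorem rhoT_sq (hodd : Odd (Fintype.card (DG (q * M) (HM (dvd_mul_left M q) H)))) (Φ : GQ)
    (y : XH O (q * M) (HM (dvd_mul_left M q) H)) :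
    rhoT hpO ι (q * M) (HM (dvd_mul_left M q) H) Φ
      (rhoT hpO ι (q * M) (HM (dvd_mul_left M q) H) Φ y) =
    F2 hpO ι H Φ (cycU (q * M) Φ)⁻¹ y := by
  have h1 : DO O (q * M) (HM (dvd_mul_left M q) H) (twd (q * M) (HM (dvd_mul_left M q) H) Φ) *
      DO O (q * M) (HM (dvd_mul_left M q) H) (twd (q * M) (HM (dvd_mul_left M q) H) Φ) =
      (DH (q * M) (HM (dvd_mul_left M q) H) (cycU (q * M) Φ)⁻¹).baseChange O := by
    rw [← map_mul, ← DO_mk]
    congr 1
    have h4 := twd_mul_mk hodd Φ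
    rw [QuotientGroup.mk_inv, eq_inv_iff_mul_eq_one, mul_assoc, h4, mul_inv_cancel]
  have h2 := rhoN_DO (O := O) (N := q * M) (H := HM (dvd_mul_left M q) H) hpO ι
    (twd (q * M) (HM (dvd_mul_left M q) H) Φ) Φ
  have h3 : rhoT hpO ι (q * M) (HM (dvd_mul_left M q) H) Φ *
      rhoT hpO ι (q * M) (HM (dvd_mul_left M q) H) Φ = F2 (O := O) hpO ι H Φ (cycU (q * M) Φ)⁻¹ := by
    change _ = rhoN hpO ι (q * M) (HM (dvd_mul_left M q) H) Φ *
      (rhoN hpO ι (q * M) (HM (dvd_mul_left M q) H) Φ *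
        (DH (q * M) (HM (dvd_mul_left M q) H) (cycU (q * M) Φ)⁻¹).baseChange O)
    rw [← h1, rhoT_apply, ← h2, mul_assoc, ← mul_assoc (DO O _ _ _) (rhoN hpO ι _ _ _), ← h2]
    simp only [mul_assoc]
  exact LinearMap.congr_fun h3 y

/-- **Frobenius at `q` on the classes with vanishing transfers**, twisted form -/
theorem rhoT_tor [Module.Flat ℤ O] (hqp : q ≠ p) (hM3 : 3 ≤ M) (D : WData q M H)
    (hA : A.LiesOverPrime q) {Φ : GQ} (hΦ : A.IsFrobeniusAt Φ q) (hqM : ¬ q ∣ M)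
    (hodd : Odd (Fintype.card (DG (q * M) (HM (dvd_mul_left M q) H))))
    {y : XH O (q * M) (HM (dvd_mul_left M q) H)}
    (h1 : tO O q M H y = 0) (h2 : tO O q M H (WO O D y) = 0) :
    (rhoT hpO ι (q * M) (HM (dvd_mul_left M q) H) Φ ^ 4) y -
      ((q ^ 2 + 1 : ℕ) : O) • (rhoT hpO ι (q * M) (HM (dvd_mul_left M q) H) Φ ^ 2) y +
      ((q ^ 2 : ℕ) : O) • y = 0 := by
  have hco : q.Coprime M := (Nat.Prime.coprime_iff_not_dvd hq.out).2 hqM
  have e1 : ZMod.unitsMap (dvd_mul_left M q) (cycU (q * M) Φ) = ZMod.unitOfCoprime q hco := by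
    apply Units.ext
    rw [ZMod.coe_unitOfCoprime, ← cycU_frobenius hco hA hΦ, coe_cycU,
      ← castHom_cyc (dvd_mul_left M q)]
    rfl
  have e2 := F2_tor hpO ι hqp hM3 D hA hΦ (d := (cycU (q * M) Φ)⁻¹) hqM hco
    (by rw [map_inv, e1, inv_mul_cancel]; exact one_mem _) h1 h2
  rw [← rhoT_sq hpO ι hodd, ← rhoT_sq hpO ι hodd] at e2
  exact e2

/-- **Frobenius at `q` on the classes with vanishing transfers**, localised lattice -/
theorem rhoY_tor (hreg : ∀ x : O, (p : O) * x = 0 → x = 0) (hqp : q ≠ p) (hM3 : 3 ≤ M)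
    (D : WData q M H) (hA : A.LiesOverPrime q) {Φ : GQ} (hΦ : A.IsFrobeniusAt Φ q) (hqM : ¬ q ∣ M)
    (hodd : Odd (Fintype.card (DG (q * M) (HM (dvd_mul_left M q) H)))) {S : Set ℕ}
    (hNS : ∀ l, l.Prime → l ∣ q * M → l ∈ S) (e : TS O S)
    {y : YH (HM (dvd_mul_left M q) H) hNS e}
    (h1 : tO O q M H y = 0) (h2 : tO O q M H (WO O D y) = 0) :
    (rhoY hpO ι (HM (dvd_mul_left M q) H) hNS e Φ ^ 4) y -
      ((q ^ 2 + 1 : ℕ) : O) • (rhoY hpO ι (HM (dvd_mul_left M q) H) hNS e Φ ^ 2) y +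
      ((q ^ 2 : ℕ) : O) • y = 0 := by
  haveI : Module.Flat ℤ O := flat_of_hreg hpO hreg
  exact Subtype.ext (rhoT_tor hpO ι hqp hM3 D hA hΦ hqM hodd h1 h2)

end XH

/-! ### the action of the trace ring -/

section HGS

variable {O T Y : Type} [CommRing O] [IsLocalRing O] [IsNoetherianRing O]
  [IsAdicComplete (maximalIdeal O) O] [CommRing T] [Algebra O T] [AddCommGroup Y] [Module O Y]
  [Module.Finite O Y] [Module.Free O Y] [Nontrivial Y] {p : ℕ} [hp : Fact p.Prime]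
  {hpO : (p : O) ∈ maximalIdeal O} {S : Set ℕ} {t : GQ → ResidueField O}
  {ψ : T →ₐ[O] Module.End O Y} {θ : T →ₐ[O] ResidueField O} {ρ : GQ →* Module.End O Y}
  (h : HG hpO S t ψ θ ρ)

/-- **`(tr Φ)² - (q + 1)²` kills the classes with vanishing transfers** -/
theorem D_smul {Φ : GQ} {q : ℕ} (hc : cycO hpO Φ = (q : O)) {y : Y}
    (hy : (ρ Φ ^ 4) y - ((q ^ 2 + 1 : ℕ) : O) • (ρ Φ ^ 2) y + ((q ^ 2 : ℕ) : O) • y = 0) :
    (h.tt Φ ^ 2 - ((q : h.TT) + 1) ^ 2) • y = 0 := by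
  have e1 : ∀ z : Y, ρ Φ⁻¹ (ρ Φ z) = z := fun z => by
    rw [← Module.End.mul_apply, ← map_mul, inv_mul_cancel, map_one, Module.End.one_apply]
  have e2 : ∀ z : Y, ρ Φ (ρ Φ⁻¹ z) = z := fun z => by
    rw [← Module.End.mul_apply, ← map_mul, mul_inv_cancel, map_one, Module.End.one_apply]
  have e3 : ∀ z : Y, h.tt Φ • z = ρ Φ z + (q : O) • ρ Φ⁻¹ z := fun z => by
    rw [h.tt_smul, hc]
  have e4 : ∀ z : Y, (((q : h.TT) + 1) ^ 2) • z = (((q : O) + 1) ^ 2) • z := fun z => by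
    rw [← algebraMap_smul h.TT (((q : O) + 1) ^ 2) z]
    congr 1
    push_cast [map_pow, map_add, map_natCast, map_one]
    rfl
  have e5 : ρ Φ⁻¹ (ρ Φ⁻¹ ((ρ Φ ^ 4) y - ((q ^ 2 + 1 : ℕ) : O) • (ρ Φ ^ 2) y +
      ((q ^ 2 : ℕ) : O) • y)) = 0 := by rw [hy, map_zero, map_zero]
  rw [sub_smul, e4, pow_two, mul_smul, e3, e3, map_add, map_add, map_smul, map_smul, e1, e2]
  rw [map_add, map_sub, map_smul, map_smul, map_add, map_sub, map_smul, map_smul] at e5
  have e6 : (ρ Φ ^ 4) y = ρ Φ (ρ Φ (ρ Φ (ρ Φ y))) := rfl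
  have e7 : (ρ Φ ^ 2) y = ρ Φ (ρ Φ y) := rfl
  rw [e6, e7, e1, e1, e1, e1] at e5
  rw [← e5]
  push_cast
  module

end HGS

/-! ### consequence: a power maps into the old part -/

section mat

open Matrix

variable {A R : Type*} [CommRing A] [CommRing R] {d dU : ℕ}

/-- **`new`**: if `D = τ² - c²` kills the kernel of `s`, then `D³` maps into the image of `i` -/
theorem new_of (f : A →+* Matrix (Fin d) (Fin d) R) (fU : A →+* Matrix (Fin dU) (Fin dU) R)
    {i1 i2 : Matrix (Fin d) (Fin dU) R} {s1 s2 : Matrix (Fin dU) (Fin d) R}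
    (hi1 : ∀ a, f a * i1 = i1 * fU a) (hi2 : ∀ a, f a * i2 = i2 * fU a)
    (hs1 : ∀ a, fU a * s1 = s1 * f a) (hs2 : ∀ a, fU a * s2 = s2 * f a) {τ c : A}
    (h11 : s1 * i1 = fU c) (h12 : s1 * i2 = fU τ) (h21 : s2 * i1 = fU τ) (h22 : s2 * i2 = fU c)
    (hker : ∀ v : Fin d → R, s1.mulVec v = 0 → s2.mulVec v = 0 →
      (f (τ ^ 2 - c ^ 2)).mulVec v = 0) :
    ∃ G1 G2 : Matrix (Fin dU) (Fin d) R, f ((τ ^ 2 - c ^ 2) ^ 3) = i1 * G1 + i2 * G2 := by
  set D := τ ^ 2 - c ^ 2 with hD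
  set G1 := fU c * s1 - fU τ * s2 with hG1
  set G2 := fU c * s2 - fU τ * s1 with hG2
  set Z := f D + i1 * G1 + i2 * G2 with hZ
  have hc : fU c * fU τ = fU τ * fU c := by rw [← map_mul, mul_comm, map_mul]
  have hfD : fU D = fU τ * fU τ - fU c * fU c := by rw [hD, map_sub, map_pow, map_pow, sq, sq]
  have z1 : s1 * Z = 0 := by
    rw [hZ, Matrix.mul_add, Matrix.mul_add, ← hs1, ← Matrix.mul_assoc, ← Matrix.mul_assoc, h11,
      h12, hfD, hG1, hG2, Matrix.mul_sub, Matrix.mul_sub, Matrix.sub_mul]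
    simp only [← Matrix.mul_assoc]
    rw [hc]
    abel
  have z2 : s2 * Z = 0 := by
    rw [hZ, Matrix.mul_add, Matrix.mul_add, ← hs2, ← Matrix.mul_assoc, ← Matrix.mul_assoc, h21,
      h22, hfD, hG1, hG2, Matrix.mul_sub, Matrix.mul_sub, Matrix.sub_mul]
    simp only [← Matrix.mul_assoc]
    rw [hc]
    abel
  have z3 : f D * Z = 0 := by
    ext i j
    have h1 := hker (fun k => Z k j) (by
      funext k
      exact congrFun (congrFun z1 k) j) (by
      funext k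
      exact congrFun (congrFun z2 k) j)
    exact congrFun h1 i
  refine ⟨-(fU D * G1 * f D), -(fU D * G2 * f D), ?_⟩
  have z4 : f D * f D = -(i1 * (fU D * G1) + i2 * (fU D * G2)) := by
    rw [hZ, mul_add, mul_add, ← Matrix.mul_assoc, ← Matrix.mul_assoc, hi1, hi2] at z3
    rw [Matrix.mul_assoc i1, Matrix.mul_assoc i2, add_assoc] at z3
    exact eq_neg_of_add_eq_zero_left z3
  rw [pow_succ, sq, map_mul, map_mul, z4]
  simp only [neg_mul, add_mul, Matrix.mul_neg, Matrix.mul_assoc]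
  abel

end mat

end

end Fermat.Agent.E2N
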