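import Fermat.Agent.E2N.Ctl
import Fermat.Agent.JT.Lev0

/-!
# Hecke operators killing the base level, on the Taylor–Wiles levels: final form
-/

set_option autoImplicit false
set_option linter.unusedSectionVars false
set_option linter.style.haveILetI false

open IsLocalRing
open scoped TensorProduct
open Fermat.Agent.KumG Fermat.Agent.GalRep Fermat.Agent.Places Fermat.Agent.Cheb
open Fermat.Agent.AL Fermat.Agent.ALCoh Fermat.Agent.TW Fermat.Agent.JT

namespace Fermat.Agent.E2N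

noncomputable section

theorem phiG_eq_zero_congr {O : Type} [CommRing O] {S : Set ℕ} {N N' : ℕ} [NeZero N] [NeZero N']
    (h : N = N') (hNS : ∀ l, l.Prime → l ∣ N → l ∈ S) (hNS' : ∀ l, l.Prime → l ∣ N' → l ∈ S)
    {s : TS O S} (hs : phiG O hNS s = 0) : phiG O hNS' s = 0 := by
  subst h
  exact hs

/-- the change of the set of primes -/
theorem phiG_rename {O : Type} [CommRing O] {S₀ S : Set ℕ} (f : IS S → IS S₀)
    (hf : ∀ l, (f l).1 = l.1) {N : ℕ} [NeZero N]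
    (hNS₀ : ∀ l, l.Prime → l ∣ N → l ∈ S₀) (hNS : ∀ l, l.Prime → l ∣ N → l ∈ S) (s : TS O S) :
    phiG O hNS₀ (MvPolynomial.rename f s) = phiG O hNS s := by
  have h : (phiG O hNS₀).comp (MvPolynomial.rename f) = phiG O hNS := by
    refine MvPolynomial.algHom_ext fun i => ?_
    rw [AlgHom.comp_apply, MvPolynomial.rename_X, phiG_X, phiG_X]
    have h1 : ∀ (a b : ℕ) (ha : a.Prime) (ha' : ¬ a ∣ N) (hb : b.Prime) (hb' : ¬ b ∣ N), a = b →
        TG ha ha' = TG hb hb' := by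
      rintro a _ ha ha' hb hb' rfl
      rfl
    rw [h1 _ _ _ _ _ _ (hf i)]
  exact congrArg (fun g : TS O S →ₐ[O] Module.End O (XG O N) => g s) h

/-- every Hecke polynomial avoiding finitely many primes comes from the smaller algebra -/
theorem exists_rename {O : Type} [CommRing O] {S₀ S : Set ℕ} (hSS : S₀ ⊆ S) (s : TS O S₀)
    (hs : ∀ l ∈ s.vars, l.1 ∉ S) :
    ∃ s' : TS O S, s = MvPolynomial.rename
      (fun l : IS S => (⟨l.1, l.2.1, fun h => l.2.2 (hSS h)⟩ : IS S₀)) s' := by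
  have h1 := MvPolynomial.exists_rename_eq_of_vars_subset_range s
    (fun l : IS S => (⟨l.1, l.2.1, fun h => l.2.2 (hSS h)⟩ : IS S₀)) (fun a b hab => by
      apply Subtype.ext
      exact congrArg (fun x : IS S₀ => x.1) hab) (by
    intro l hl
    exact ⟨⟨l.1, l.2.1, hs l hl⟩, Subtype.ext rfl⟩)
  obtain ⟨q, hq⟩ := h1
  exact ⟨q, hq.symm⟩

section mat

variable {O T Y : Type} [CommRing O] [IsLocalRing O] [IsNoetherianRing O]
  [IsAdicComplete (maximalIdeal O) O] [CommRing T] [Algebra O T] [AddCommGroup Y] [Module O Y]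
  [Module.Finite O Y] [Module.Free O Y] [Nontrivial Y] {p : ℕ} [hp : Fact p.Prime]
  {hpO : (p : O) ∈ maximalIdeal O} {S : Set ℕ} {t : GQ → ResidueField O}
  {ψ : T →ₐ[O] Module.End O Y} {θ : T →ₐ[O] ResidueField O} {ρ : GQ →* Module.End O Y}
  (h : HG hpO S t ψ θ ρ) [Invertible (2 : O)] {g₀ k₀ : GQ} (hgk : HG.IrrAt t g₀ k₀)

include hgk in
/-- the augmentation condition on `Y` gives the one on the half `MQ` -/
theorem augS_MQ {r : ℕ} (g : Fin r → h.TT) {a : h.TT} (ha : ∀ y : Y, a • y ∈ augS Y g)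
    (m : h.MQ) : a • m ∈ augS h.MQ g := by
  have h1 := augS_map g ((LinearMap.fst h.TT h.MQ h.MQ).comp (h.EE hgk).toLinearMap)
    (ha ((h.EE hgk).symm (m, 0)))
  rw [LinearMap.comp_apply, LinearEquiv.coe_coe, map_smul, LinearEquiv.apply_symm_apply] at h1
  exact h1

include hgk in
/-- matrix form -/
theorem mat_MQ {r : ℕ} (g : Fin r → h.TT) {a : h.TT} (ha : ∀ y : Y, a • y ∈ augS Y g)
    {G : Type} [CommRing G] [Algebra O G] {d : ℕ} (E : h.MQ ≃ₗ[O] (Fin d → G))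
    (f : h.TT →ₐ[O] Matrix (Fin d) (Fin d) G) (hE : ∀ a m, E (a • m) = (f a).mulVec (E m))
    (δ : Fin r → G) (hf : ∀ i, f (g i) = Matrix.scalar (Fin d) (δ i)) (i j : Fin d) :
    f a i j ∈ Ideal.span (Set.range fun k => δ k - 1) :=
  mat_aug (Y := h.MQ) g E.toAddEquiv (f : h.TT →+* Matrix (Fin d) (Fin d) G) hE δ hf
    (augS_MQ h hgk g ha) i j

end mat

section

variable {O : Type} [CommRing O] [IsDomain O] [IsDiscreteValuationRing O]
  [IsAdicComplete (maximalIdeal O) O] [CharZero O] {p : ℕ} [hp : Fact p.Prime]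
  (hpO : (p : O) ∈ maximalIdeal O)

include hpO in
/-- **(J)** The element of the trace ring attached to a Hecke polynomial which kills the module of
the base level maps the module of the Taylor–Wiles level into the augmentation part. -/
theorem ctl (hp2 : p ≠ 2) (ι : AlgebraicClosure ℚ →+* ℂ)
    [Invertible (2 : O)] {t D : GQ → ResidueField O} {g₀ k₀ : GQ} (hgk : HG.IrrAt t g₀ k₀)
    {N₀ : ℕ} [NeZero N₀] (hN₀ : 3 ≤ N₀) {S₀ : Set ℕ} (hS₀ : S₀.Finite) (hpS₀ : p ∈ S₀)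
    (hNS₀ : ∀ l, l.Prime → l ∣ N₀ → l ∈ S₀) {tl : ℕ → ResidueField O}
    (ht : IsPseudoRep t D) (htc : IsLocConst t)
    (hfrob : ∀ l : ℕ, l.Prime → l ∉ S₀ → ∀ A : ValuationSubring (AlgebraicClosure ℚ),
      A.LiesOverPrime l → ∀ τ : GQ, A.IsFrobeniusAt τ l → t τ = tl l ∧ D τ = l)
    (hcom : ∃ σ τ, t (σ * τ * σ⁻¹ * τ⁻¹) ≠ 2)
    {r : ℕ} {v : Fin r → ℕ} {A : Fin r → ValuationSubring (AlgebraicClosure ℚ)}
    {Φ : Fin r → GQ} (hinj : Function.Injective v) (hvS : ∀ i, v i ∉ S₀)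
    {m c : Fin r → ℕ} (hmc : ∀ i, v i - 1 = p ^ m i * c i) (hc : ∀ i, ¬ p ∣ c i)
    (hm : ∀ i, 1 ≤ m i) (hv : ∀ i, TWp p t (v i) (A i) (Φ i))
    {N : ℕ} [NeZero N] (hN : N = N₀ * ∏ i, v i) {S : Set ℕ} (hSS : S = S₀ ∪ Set.range v)
    (hNS : ∀ l, l.Prime → l ∣ N → l ∈ S) (hvN : ∀ i, v i ∣ N)
    [hH : Fact ((-1 : (ZMod N)ˣ) ∈ HQ hvN c)] [∀ s : Finset (Fin r), NeZero (NN N₀ v s)]
    (hNNS : ∀ s, ∀ l, l.Prime → l ∣ NN N₀ v s → l ∈ S) {e : TS O S}
    (heok : EOK hNNS hNS (HQ hvN c) (thS tl S) e)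
    [Nontrivial (YH (HQ hvN c) hNS e)] [Module.Free O (YH (HQ hvN c) hNS e)]
    (hg : HG hpO S t (psiY (HQ hvN c) hNS e) (thetaD (thS tl S) N) (rhoY hpO ι (HQ hvN c) hNS e))
    (L : ∀ i, LocW p (v i) (A i) (hg.R hgk))
    (hNS' : ∀ l, l.Prime → l ∣ N₀ → l ∈ S) {s : TS O S} (hs : phiG O hNS' s = 0)
    {Fr : IS S → GQ} {Pl : IS S → ValuationSubring (AlgebraicClosure ℚ)}
    (hPl : ∀ l : IS S, (Pl l).LiesOverPrime l.1) (hFr : ∀ l : IS S, (Pl l).IsFrobeniusAt (Fr l) l.1)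
    (y : YH (HQ hvN c) hNS e) :
    hat hg Fr s • y ∈ augS (YH (HQ hvN c) hNS e) fun i => (L i).η (L i).σ₀ := by
  classical
  have hS₀S : S₀ ⊆ S := by rw [hSS]; exact Set.subset_union_left
  have hS : S.Finite := by rw [hSS]; exact hS₀.union (Set.finite_range v)
  have hpS : p ∈ S := hS₀S hpS₀
  have hvN₀ : ∀ i, ¬ v i ∣ N₀ := fun i h => hvS i (hNS₀ _ (hv i).prime h)
  have hw : TWN p N₀ v N m c := ⟨hp.out, hp2, fun i => (hv i).prime, hinj, hvN₀, hN, hmc, hc, hm⟩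
  have hΔ : IsPGroup p (DG N (HQ hw.dvd c)) := hw.isPGroup
  obtain ⟨he, heG', heH⟩ := heok
  have hNN : NN N₀ v Finset.univ = N := hN.symm
  obtain ⟨heG, -⟩ := isLoc_congr hNN (hNNS _) hNS (heG' Finset.univ)
  -- Frobenius
  have hfrobS : ∀ l : IS S, ∀ A : ValuationSubring (AlgebraicClosure ℚ),
      A.LiesOverPrime (l : ℕ) → ∀ τ : GQ, A.IsFrobeniusAt τ (l : ℕ) →
        t τ = thS tl S (MvPolynomial.X l) ∧ D τ = (l : ℕ) := by
    intro l A hA τ hτ
    rw [thS_X]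
    exact hfrob l l.2.1 (fun h => l.2.2 (hS₀S h)) A hA τ hτ
  -- the auxiliary prime
  obtain ⟨l, hl, hlS, hlN, hl1, B, hB, τ, hτ, htτ⟩ := exists_aux (k := ResidueField O) (p := p)
    (by rw [← map_natCast (residue O)]; exact (IsLocalRing.residue_eq_zero_iff _).2 hpO)
    ht htc (S₀ := S₀) (fun l hl hlS A hA τ hτ => (hfrob l hl hlS A hA τ hτ).2) hcom N hS hS₀S
  have hi : thS tl S (eisP O ⟨l, hl, hlS⟩) ≠ 0 := by
    rw [eisP, map_sub, thS_X, ← MvPolynomial.algebraMap_eq, AlgHom.commutes, map_natCast,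
      Nat.cast_add, Nat.cast_one]
    change tl l - ((l : ResidueField O) + 1) ≠ 0
    rw [hl1, ← (hfrob l hl (fun h => hlS (hS₀S h)) B hB τ hτ).1]
    intro h
    apply htτ
    linear_combination h
  -- the basis
  haveI : Module.Free O (part (phiG O hNS) e) := free_part heG.idem
  let b₀ := Module.finBasis O (part (phiG O hNS) e)
  obtain ⟨b, hb⟩ := exists_bY (H := HQ hw.dvd c) hpO hp2 hΔ heG heH hi hlN b₀
  -- the generators
  obtain ⟨d, h1, h2, h3, h4⟩ := hw.exists_gen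
  have hgen : Subgroup.closure (Set.range fun i =>
      (QuotientGroup.mk (d i) : DG N (HQ hw.dvd c))) = ⊤ := by
    rw [eq_top_iff]
    rintro δ -
    obtain ⟨x, rfl⟩ := QuotientGroup.mk_surjective δ
    obtain ⟨a, ha⟩ := hw.gen_all h2 h3 x
    rw [ha]
    have h5 : (QuotientGroup.mk (∏ j, d j ^ a j) : DG N (HQ hw.dvd c)) =
        QuotientGroup.mk' (HQ hw.dvd c) (∏ j, d j ^ a j) := rfl
    rw [h5]
    have h6 : ∏ j, d j ^ a j ∈ (Subgroup.closure (Set.range fun i =>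
        (QuotientGroup.mk (d i) : DG N (HQ hw.dvd c)))).comap (QuotientGroup.mk' (HQ hw.dvd c)) :=
      Subgroup.prod_mem _ fun i _ => Subgroup.pow_mem _ (by
        have h7 : (QuotientGroup.mk (d i) : DG N (HQ hw.dvd c)) ∈
            Subgroup.closure (Set.range fun i => (QuotientGroup.mk (d i) : DG N (HQ hw.dvd c))) :=
          Subgroup.subset_closure ⟨i, rfl⟩
        exact h7) _
    exact h6
  have hδ : ∀ (δ : DG N (HQ hw.dvd c)) (y : YH (HQ hw.dvd c) hNS e),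
      dlB hNS e δ • y - y ∈ augS (YH (HQ hw.dvd c) hNS e) fun i => (L i).η (L i).σ₀ :=
    dl_aug hg (fun i => (L i).η (L i).σ₀) hgen fun i y =>
      exists_DG hpO ι hw hgk hg hS hpS hN₀ h1 h3 h4 b hb i (hv i).hA (hv i).ne (L i) y
  -- the Hecke operator
  have hkill : ∀ x ∈ part (phiG O hNS) e, phiG O hNS s x = 0 := by
    have h5 : ∀ (N' : ℕ) [NeZero N'] (h : N' = N) (hN'S : ∀ l, l.Prime → l ∣ N' → l ∈ S),
        (∀ x ∈ part (phiG O hN'S) e, phiG O hN'S s x = 0) →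
          ∀ x ∈ part (phiG O hNS) e, phiG O hNS s x = 0 := by
      intro N' _ h hN'S hx
      subst h
      exact hx
    refine h5 _ hNN (hNNS _) ?_
    refine kill_NN hpO hS hpS ι ht htc hfrobS hinj hvN₀ hv hNNS heG' (fun x _ => ?_) Finset.univ
    rw [phiG_eq_zero_congr (by rw [NN, Finset.prod_empty, mul_one]) hNS' (hNNS ∅) hs]
    rfl
  obtain ⟨z, hz⟩ := psiY_aug hpO hp2 hΔ heG heH hi hlN hkill y
  have hodd := odd_card (N := N) (H := HQ hw.dvd c) hw.p2 hw.isPGroup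
  have h6 := hat_sub hg (fun i => (L i).η (L i).σ₀) hpS hodd hPl hFr hδ s y
  have h7 : psiY (HQ hw.dvd c) hNS e (incD O S N s) y ∈
      augS (YH (HQ hw.dvd c) hNS e) fun i => (L i).η (L i).σ₀ := by
    rw [hz]
    exact Submodule.sum_mem _ fun δ _ => hδ δ (z δ)
  have h8 := Submodule.add_mem _ h6 h7
  rwa [sub_add_cancel] at h8

end

end

end Fermat.Agent.E2N
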