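import Fermat.Agent.TW.GD
import Fermat.Agent.TW.BasY

/-!
# Hecke operators killing the base level, on the Taylor–Wiles levels
-/

set_option autoImplicit false
set_option linter.unusedSectionVars false
set_option linter.style.haveILetI false

open IsLocalRing
open scoped TensorProduct
open Fermat.Agent.KumG Fermat.Agent.GalRep Fermat.Agent.Places Fermat.Agent.Cheb
open Fermat.Agent.AL Fermat.Agent.ALCoh Fermat.Agent.TW

namespace Fermat.Agent.E2N

noncomputable section

/-! ### levels `Γ₀` -/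

section G0

variable {O : Type} [CommRing O] [IsLocalRing O] [IsNoetherianRing O] [IsDomain O]
  [IsAdicComplete (maximalIdeal O) O] [Module.Flat ℤ O] {p : ℕ} [hp : Fact p.Prime]
  (hpO : (p : O) ∈ maximalIdeal O) {S : Set ℕ} {θ : TS O S →ₐ[O] ResidueField O} {e : TS O S}
  (hS : S.Finite) (hpS : p ∈ S) (ι : AlgebraicClosure ℚ →+* ℂ)
  {t D : GQ → ResidueField O} (ht : IsPseudoRep t D) (htc : IsLocConst t)
  (hfrob : ∀ l : IS S, ∀ A : ValuationSubring (AlgebraicClosure ℚ),
    A.LiesOverPrime (l : ℕ) → ∀ τ : GQ, A.IsFrobeniusAt τ (l : ℕ) →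
      t τ = θ (MvPolynomial.X l) ∧ D τ = (l : ℕ))

include hpO hS hpS ι ht htc hfrob in
theorem kill_step {M v N' : ℕ} [NeZero M] [NeZero N'] (hN' : N' = M * v)
    (hvM : ¬ v ∣ M) (hMS : ∀ l, l.Prime → l ∣ M → l ∈ S) (hN'S : ∀ l, l.Prime → l ∣ N' → l ∈ S)
    {A : ValuationSubring (AlgebraicClosure ℚ)} {Φ : GQ} (hv : TWp p t v A Φ)
    (he : IsLoc (phiG O hMS) θ e) (he' : IsLoc (phiG O hN'S) θ e) {s : TS O S}
    (hs : ∀ x ∈ part (phiG O hMS) e, phiG O hMS s x = 0) :
    ∀ x ∈ part (phiG O hN'S) e, phiG O hN'S s x = 0 := by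
  subst hN'
  haveI := charP_res hpO
  obtain ⟨B, hB⟩ := exists_WS (dvd_mul_left v M) (by
    rw [Nat.mul_div_cancel _ hv.prime.pos]
    exact (Nat.Prime.coprime_iff_not_dvd hv.prime).2 hvM)
  have h1 := bijective_betaV hv.prime hB hvM hMS hN'S (k := ResidueField O)
    (by rw [IsLocalRing.ResidueField.algebraMap_eq]; exact IsLocalRing.residue_surjective)
    hS hpS ι ht htc hfrob hv.one hv.hA hv.hΦ hv.ne_four he he'
  intro x hx
  have h2 : (actPart (phiG O hN'S) e s ⟨x, hx⟩ : part (phiG O hN'S) e) = 0 := by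
    apply h1.1
    rw [map_zero]
    apply Prod.ext
    · apply Subtype.ext
      change trV O M v (phiG O hN'S s x) = 0
      rw [trV_phi hMS hN'S]
      exact hs _ (mapPart (e := e) (trV O M v) (trV_phi hMS hN'S) ⟨x, hx⟩).2
    · apply Subtype.ext
      change (trV O M v ∘ₗ wV O hv.prime hB) (phiG O hN'S s x) = 0
      rw [trwV_phi hv.prime hB hMS hN'S]
      exact hs _ (mapPart (e := e) (trV O M v ∘ₗ wV O hv.prime hB)
        (trwV_phi hv.prime hB hMS hN'S) ⟨x, hx⟩).2
  exact congrArg Subtype.val h2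

include hpO hS hpS ι ht htc hfrob in
/-- a Hecke operator which kills the localised module of the base level kills those of level
`N₀ ∏ v i` -/
theorem kill_NN {N₀ r : ℕ} {v : Fin r → ℕ} (hinj : Function.Injective v)
    (hvN : ∀ i, ¬ v i ∣ N₀) {A : Fin r → ValuationSubring (AlgebraicClosure ℚ)} {Φ : Fin r → GQ}
    (hv : ∀ i, TWp p t (v i) (A i) (Φ i)) [∀ s, NeZero (NN N₀ v s)]
    (hNS : ∀ s, ∀ l, l.Prime → l ∣ NN N₀ v s → l ∈ S)
    (he : ∀ s, IsLoc (phiG O (hNS s)) θ e) {a : TS O S}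
    (ha : ∀ x ∈ part (phiG O (hNS ∅)) e, phiG O (hNS ∅) a x = 0) (s : Finset (Fin r)) :
    ∀ x ∈ part (phiG O (hNS s)) e, phiG O (hNS s) a x = 0 := by
  classical
  induction s using Finset.induction_on with
  | empty => exact ha
  | insert i s his ih =>
    have h1 : NN N₀ v (insert i s) = NN N₀ v s * v i := by
      rw [NN, NN, Finset.prod_insert his]
      ring
    have h2 : ¬ v i ∣ NN N₀ v s := by
      intro h
      rcases (hv i).prime.dvd_mul.1 h with h | h
      · exact hvN i h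
      · obtain ⟨j, hj, hij⟩ := ((hv i).prime.prime.dvd_finsetProd_iff _).1 h
        rw [Nat.prime_dvd_prime_iff_eq (hv i).prime (hv j).prime] at hij
        rw [hinj hij] at his
        exact his hj
    exact kill_step hpO hS hpS ι ht htc hfrob h1 h2 (hNS s) (hNS _) (hv i) (he _) (he _) ih

end G0

/-! ### the kernel of the transfer -/

section ker

variable {O : Type} [CommRing O] [IsLocalRing O] [IsNoetherianRing O]
  [IsAdicComplete (maximalIdeal O) O] {p : ℕ} [hp : Fact p.Prime]
  (hpO : (p : O) ∈ maximalIdeal O) {S : Set ℕ} {θ : TS O S →ₐ[O] ResidueField O} {e : TS O S}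
  {N : ℕ} [NeZero N] {H : Subgroup (ZMod N)ˣ}
  [hH : Fact ((-1 : (ZMod N)ˣ) ∈ H)] {hNS : ∀ l, l.Prime → l ∣ N → l ∈ S}

include hpO in
/-- the kernel of the transfer is generated by the elements `δ z - z` -/
theorem ker_trO (hp2 : p ≠ 2) (hΔ : IsPGroup p (DG N H)) (heG : IsLoc (phiG O hNS) θ e)
    (heH : IsLoc (phiH O H hNS) θ e) {i : IS S} (hi : θ (eisP O i) ≠ 0)
    (hiN : (N : ℤ) ∣ (i.1 : ℤ) - 1) (y : YH H hNS e) (hy : trO O N H y = 0) :
    ∃ z : DG N H → YH H hNS e, y = ∑ δ, (dlB hNS e δ • z δ - z δ) := by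
  classical
  haveI := charP_res hpO
  haveI : Module.Free O (part (phiG O hNS) e) := free_part heG.idem
  let b := Module.finBasis O (part (phiG O hNS) e)
  have hsurj := surjective_trO (H := H) (p := p) hp2 heG hi
  choose w hw using fun i => hsurj (b i)
  obtain ⟨B, hB⟩ := free_H hp2 hΔ heG heH hi hiN b w hw
  have hyp : (y : XH O N H) ∈ part (phiH O H hNS) e := by
    rw [part_eq]
    exact y.2
  have hwp : ∀ j, (w j : XH O N H) ∈ part (phiD O H hNS) (incD O S N e) := fun j => by
    rw [← part_eq]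
    exact (w j).2
  obtain ⟨c, h1⟩ : ∃ c : Fin _ × DG N H → O, (⟨y, hyp⟩ : part (phiH O H hNS) e) =
      ∑ x, c x • B x := ⟨B.repr ⟨y, hyp⟩, (B.sum_repr _).symm⟩
  have h2 : ∀ j, ∑ δ, c (j, δ) = 0 := by
    intro j
    have h3 : mapPart (trO O N H) (trO_phi O hNS) (⟨y, hyp⟩ : part (phiH O H hNS) e) = 0 :=
      Subtype.ext hy
    have h4 : mapPart (trO O N H) (trO_phi O hNS) (⟨y, hyp⟩ : part (phiH O H hNS) e) =
        ∑ j, (∑ δ, c (j, δ)) • b j := by
      rw [h1, map_sum, Fintype.sum_prod_type]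
      refine Finset.sum_congr rfl fun j _ => ?_
      rw [Finset.sum_smul]
      refine Finset.sum_congr rfl fun δ _ => ?_
      rw [map_smul, hB, ← hw j]
      congr 1
      apply Subtype.ext
      exact trO_DO O δ _
    rw [h3] at h4
    have h5 := congrArg (fun z => b.repr z j) h4
    simp only [map_zero, Finsupp.zero_apply, map_sum, map_smul, Module.Basis.repr_self,
      Finsupp.coe_finsetSum, Finset.sum_apply, Finsupp.smul_apply, smul_eq_mul] at h5
    rw [Finset.sum_eq_single j (fun k _ hk => by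
      rw [Finsupp.single_eq_of_ne (Ne.symm hk), mul_zero]) (fun h => absurd (Finset.mem_univ j) h),
      Finsupp.single_eq_same, mul_one] at h5
    exact h5.symm
  let W : Fin _ → YH H hNS e := fun j => ⟨w j, hwp j⟩
  refine ⟨fun δ => ∑ j, c (j, δ) • W j, ?_⟩
  have h7 : ∑ δ : DG N H, ∑ j, c (j, δ) • W j = 0 := by
    rw [Finset.sum_comm]
    refine Finset.sum_eq_zero fun j _ => ?_
    rw [← Finset.sum_smul, h2, zero_smul]
  rw [Finset.sum_sub_distrib, h7, sub_zero]
  apply Subtype.ext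
  have h8 : (y : XH O N H) = ∑ x, c x • (B x : XH O N H) := by
    have := congrArg Subtype.val h1
    rw [Submodule.coe_sum] at this
    exact this
  rw [h8, Submodule.coe_sum, Fintype.sum_prod_type, Finset.sum_comm]
  refine Finset.sum_congr rfl fun δ _ => ?_
  rw [dlB_smul, Submodule.coe_sum, map_sum]
  refine Finset.sum_congr rfl fun j _ => ?_
  rw [hB, Submodule.coe_smul, map_smul]
  rfl

include hpO in
/-- **(J1)** A Hecke operator which kills the localised lattice of level `Γ₀(N)` maps the one of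
level `Γ_H(N)` into the augmentation part. -/
theorem psiY_aug (hp2 : p ≠ 2) (hΔ : IsPGroup p (DG N H)) (heG : IsLoc (phiG O hNS) θ e)
    (heH : IsLoc (phiH O H hNS) θ e) {i : IS S} (hi : θ (eisP O i) ≠ 0)
    (hiN : (N : ℤ) ∣ (i.1 : ℤ) - 1) {a : TS O S}
    (ha : ∀ x ∈ part (phiG O hNS) e, phiG O hNS a x = 0) (y : YH H hNS e) :
    ∃ z : DG N H → YH H hNS e,
      psiY H hNS e (incD O S N a) y = ∑ δ, (dlB hNS e δ • z δ - z δ) := by
  refine ker_trO hpO hp2 hΔ heG heH hi hiN _ ?_
  rw [actPart_coe, phiD_incD, trO_phi]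
  refine ha _ ?_
  have h1 : (y : XH O N H) ∈ part (phiH O H hNS) e := by
    rw [part_eq]
    exact y.2
  exact (mapPart (e := e) (trO O N H) (trO_phi O hNS) ⟨y, h1⟩).2

end ker

/-! ### the augmentation part -/

section aug

variable {R Y Y' : Type*} [CommRing R] [AddCommGroup Y] [Module R Y] [AddCommGroup Y'] [Module R Y']
  {r : ℕ} (g : Fin r → R)

variable (Y) in
/-- the submodule `∑ (g i - 1) Y` -/
def augS : Submodule R Y :=
  LinearMap.range (∑ i, (g i - 1) • (LinearMap.proj i : (Fin r → Y) →ₗ[R] Y))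

theorem mem_augS {y : Y} : y ∈ augS Y g ↔ ∃ z : Fin r → Y, ∑ i, (g i - 1) • z i = y := by
  rw [augS, LinearMap.mem_range]
  refine exists_congr fun z => ?_
  rw [LinearMap.sum_apply]
  rfl

theorem augS_map (f : Y →ₗ[R] Y') {y : Y} (hy : y ∈ augS Y g) : f y ∈ augS Y' g := by
  rw [mem_augS] at hy ⊢
  obtain ⟨z, rfl⟩ := hy
  refine ⟨fun i => f (z i), ?_⟩
  rw [map_sum]
  exact Finset.sum_congr rfl fun i _ => (map_smul f _ _).symm

theorem sub_one_smul_mem (i : Fin r) (y : Y) : (g i - 1) • y ∈ augS Y g := by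
  classical
  rw [mem_augS]
  refine ⟨Pi.single i y, ?_⟩
  rw [Finset.sum_eq_single i (fun j _ hj => by rw [Pi.single_eq_of_ne hj, smul_zero])
    (fun h => absurd (Finset.mem_univ i) h), Pi.single_eq_same]

/-- matrix form -/
theorem mat_aug {G : Type*} [CommRing G] {d : ℕ} (E : Y ≃+ (Fin d → G))
    (f : R →+* Matrix (Fin d) (Fin d) G) (hE : ∀ a m, E (a • m) = (f a).mulVec (E m))
    (δ : Fin r → G) (hf : ∀ i, f (g i) = Matrix.scalar (Fin d) (δ i)) {a : R}
    (ha : ∀ m : Y, a • m ∈ augS Y g) (i j : Fin d) :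
    f a i j ∈ Ideal.span (Set.range fun k => δ k - 1) := by
  classical
  obtain ⟨z, hz⟩ := (mem_augS g).1 (ha (E.symm (Pi.single j 1)))
  have h1 := congrArg E hz
  rw [hE, AddEquiv.apply_symm_apply, map_sum] at h1
  have h2 := congrFun h1 i
  rw [Matrix.mulVec_single_one, Finset.sum_apply] at h2
  rw [show f a i j = (f a).col j i from rfl, ← h2]
  refine Ideal.sum_mem _ fun k _ => ?_
  rw [hE, map_sub, map_one, hf, Matrix.sub_mulVec, Matrix.one_mulVec, Pi.sub_apply]
  have h3 : (Matrix.scalar (Fin d) (δ k)).mulVec (E (z k)) i = δ k * E (z k) i := by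
    rw [Matrix.scalar_apply, Matrix.mulVec_diagonal]
  rw [h3]
  have h4 : δ k * E (z k) i - E (z k) i = (δ k - 1) * E (z k) i := by ring
  rw [h4]
  exact Ideal.mul_mem_right _ _ (Ideal.subset_span ⟨k, rfl⟩)

end aug

section hat

variable {O : Type} [CommRing O] [IsLocalRing O] [IsNoetherianRing O]
  [IsAdicComplete (maximalIdeal O) O] {p : ℕ} [hp : Fact p.Prime]
  {hpO : (p : O) ∈ maximalIdeal O} {ι : AlgebraicClosure ℚ →+* ℂ} {N : ℕ} [NeZero N]
  {H : Subgroup (ZMod N)ˣ} [hH : Fact ((-1 : (ZMod N)ˣ) ∈ H)] {S : Set ℕ}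
  {hNS : ∀ l, l.Prime → l ∣ N → l ∈ S} {e : TS O S}
  [Nontrivial (YH H hNS e)] [Module.Free O (YH H hNS e)]
  {t : GQ → ResidueField O} {θ' : TD O S N →ₐ[O] ResidueField O}
  (h : HG hpO S t (psiY H hNS e) θ' (rhoY hpO ι H hNS e)) {r : ℕ} (g : Fin r → h.TT)

/-- elements of the Hecke ring act linearly -/
def lmB (b : BB (psiY H hNS e)) : YH H hNS e →ₗ[h.TT] YH H hNS e where
  toFun y := b • y
  map_add' := smul_add b
  map_smul' a y := by
    rw [RingHom.id_apply, ← h.incB_smul, ← h.incB_smul, smul_smul, smul_smul, mul_comm]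

theorem lmB_apply (b : BB (psiY H hNS e)) (y : YH H hNS e) : lmB h b y = b • y := rfl

/-- all diamonds act trivially modulo the augmentation part -/
theorem dl_aug {d : Fin r → DG N H} (hgen : Subgroup.closure (Set.range d) = ⊤)
    (hd : ∀ i (y : YH H hNS e), ∃ z : YH H hNS e,
      (dlB hNS e (d i) - 1) • y = (h.incB (g i) - 1) • z) (δ : DG N H)
    (y : YH H hNS e) : dlB hNS e δ • y - y ∈ augS (YH H hNS e) g := by
  have hδ : δ ∈ Subgroup.closure (Set.range d) := by rw [hgen]; trivial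
  induction hδ using Subgroup.closure_induction generalizing y with
  | mem x hx =>
    obtain ⟨i, rfl⟩ := hx
    obtain ⟨z, hz⟩ := hd i y
    rw [sub_smul, one_smul, sub_smul, one_smul, h.incB_smul] at hz
    rw [hz]
    have := sub_one_smul_mem g i z
    rwa [sub_smul, one_smul] at this
  | one =>
    rw [map_one, one_smul, sub_self]
    exact Submodule.zero_mem _
  | mul a b _ _ ha hb =>
    have e1 : dlB hNS e (a * b) • y - y =
        lmB h (dlB hNS e a) (dlB hNS e b • y - y) + (dlB hNS e a • y - y) := by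
      rw [lmB_apply, map_mul, mul_smul, smul_sub]
      abel
    rw [e1]
    exact Submodule.add_mem _ (augS_map g _ (hb y)) (ha y)
  | inv a _ ha =>
    have e1 : dlB hNS e a⁻¹ • y - y = -lmB h (dlB hNS e a⁻¹) (dlB hNS e a • y - y) := by
      rw [lmB_apply, smul_sub, smul_smul, ← map_mul, inv_mul_cancel, map_one, one_smul]
      abel
    rw [e1]
    exact Submodule.neg_mem _ (augS_map g _ (ha y))

/-- the element of the trace ring attached to a Hecke polynomial -/
def hat (Fr : IS S → GQ) : TS O S →ₐ[O] h.TT := MvPolynomial.aeval fun l => h.tt (Fr l)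

theorem hat_sub (hpS : p ∈ S) (hodd : Odd (Fintype.card (DG N H))) {Fr : IS S → GQ}
    {Pl : IS S → ValuationSubring (AlgebraicClosure ℚ)}
    (hPl : ∀ l : IS S, (Pl l).LiesOverPrime l.1) (hFr : ∀ l : IS S, (Pl l).IsFrobeniusAt (Fr l) l.1)
    (hδ : ∀ (δ : DG N H) (y : YH H hNS e), dlB hNS e δ • y - y ∈ augS (YH H hNS e) g) (s : TS O S)
    (y : YH H hNS e) :
    hat h Fr s • y - psiY H hNS e (incD O S N s) y ∈ augS (YH H hNS e) g := by
  induction s using MvPolynomial.induction_on generalizing y with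
  | C a =>
    have e1 : hat h Fr (MvPolynomial.C a) • y - psiY H hNS e (incD O S N (MvPolynomial.C a)) y =
        0 := by
      rw [← MvPolynomial.algebraMap_eq, AlgHom.commutes, AlgHom.commutes, AlgHom.commutes,
        algebraMap_smul, Module.algebraMap_end_apply, sub_self]
    rw [e1]
    exact Submodule.zero_mem _
  | add a b ha hb =>
    have e1 : hat h Fr (a + b) • y - psiY H hNS e (incD O S N (a + b)) y =
        (hat h Fr a • y - psiY H hNS e (incD O S N a) y) +
          (hat h Fr b • y - psiY H hNS e (incD O S N b) y) := by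
      rw [map_add, map_add, map_add, add_smul, LinearMap.add_apply]
      abel
    rw [e1]
    exact Submodule.add_mem _ (ha y) (hb y)
  | mul_X a l ha =>
    set w := psiY H hNS e (incD O S N (MvPolynomial.X l)) y with hw
    have e2 : hat h Fr (MvPolynomial.X l) • y = dlB hNS e (twd N H (Fr l)) • w := by
      rw [hat, MvPolynomial.aeval_X, ← h.incB_smul, incB_tt_frob hpO ι h hodd l.2.1 l.2.2
        (fun hlp => l.2.2 (by rw [hlp]; exact hpS)) (hPl l) (hFr l), mul_smul, BB.mk_smul, hw,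
        incD_X]
    have e1 : hat h Fr (a * MvPolynomial.X l) • y -
        psiY H hNS e (incD O S N (a * MvPolynomial.X l)) y =
        hat h Fr a • (dlB hNS e (twd N H (Fr l)) • w - w) +
          (hat h Fr a • w - psiY H hNS e (incD O S N a) w) := by
      rw [map_mul, map_mul, map_mul, mul_smul, e2, Module.End.mul_apply, ← hw, smul_sub]
      abel
    rw [e1]
    exact Submodule.add_mem _ (Submodule.smul_mem _ _ (hδ _ _)) (ha w)

end hat

end

end Fermat.Agent.E2N
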